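import Fermat.Agent.TraceFn.Tower
import Fermat.Agent.DefCond.Cyclotomic
import Fermat.Prelude.Def_GaloisRep_LocalConditions

/-!
# Cyclotomic determinant from the Frobenius elements
-/

set_option autoImplicit false

noncomputable section

open IsLocalRing

namespace Fermat.Agent.R59.TopRep

local notation "Γℚ" => (AlgebraicClosure ℚ ≃ₐ[ℚ] AlgebraicClosure ℚ)

variable {p : ℕ} [Fact p.Prime] {A : Type} [CommRing A] [IsLocalRing A]

/-- The determinants of congruent representation matrices are congruent. -/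
theorem det_sub_mem (ρ : GaloisRepAdic A) (n : ℕ) :
    ∃ L : IntermediateField ℚ (AlgebraicClosure ℚ), FiniteDimensional ℚ L ∧
      ∀ g h : Γℚ, (∀ x ∈ L, g x = h x) →
        LinearMap.det (ρ.ρ g) - LinearMap.det (ρ.ρ h) ∈ maximalIdeal A ^ n := by
  classical
  obtain ⟨L, hL, hlev⟩ := ρ.isAdicContinuous n
  refine ⟨L, hL, fun g h hgh => ?_⟩
  let b := Module.finBasisOfFinrankEq A ρ.V ρ.finrank_eq
  set q := Ideal.Quotient.mk (maximalIdeal A ^ n)
  have hfix : ∀ x ∈ L, (h⁻¹ * g) x = x := fun x hx => by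
    rw [AlgEquiv.mul_apply, hgh x hx]; exact h.symm_apply_apply x
  have hone : (LinearMap.toMatrix b b (ρ.ρ (h⁻¹ * g))).map q = 1 := by
    ext i j
    rw [Matrix.map_apply, LinearMap.toMatrix_apply]
    have h1 : b.repr (ρ.ρ (h⁻¹ * g) (b j) - b j) i ∈ maximalIdeal A ^ n := by
      refine Submodule.smul_induction_on (p := fun v => b.repr v i ∈ maximalIdeal A ^ n)
        (hlev _ hfix (b j)) (fun r hr w _ => ?_) fun x y hx hy => ?_
      · rw [map_smul, Finsupp.smul_apply, smul_eq_mul]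
        exact Ideal.mul_mem_right _ _ hr
      · rw [map_add, Finsupp.add_apply]
        exact Ideal.add_mem _ hx hy
    rw [map_sub, Finsupp.sub_apply] at h1
    rw [(Ideal.Quotient.eq).mpr h1, b.repr_self, Finsupp.single_apply, Matrix.one_apply]
    by_cases hij : i = j
    · simp [hij]
    · simp [hij, Ne.symm hij]
  have hdet : q (LinearMap.det (ρ.ρ (h⁻¹ * g))) = 1 := by
    rw [← LinearMap.det_toMatrix b, RingHom.map_det, RingHom.mapMatrix_apply, hone, Matrix.det_one]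
  rw [← Ideal.Quotient.eq, show g = h * (h⁻¹ * g) by group, map_mul, map_mul, map_mul]
  rw [hdet, mul_one]

/-- A representation whose determinant at almost all Frobenius elements is the prime has cyclotomic
determinant. -/
theorem detIsCyclotomic_of_frobenius [IsNoetherianRing A] (ρ : GaloisRepAdic A)
    (hpA : (p : A) ∈ maximalIdeal A) (S : Finset ℕ)
    (hF : ∀ ℓ : ℕ, ℓ.Prime → ℓ ∉ S → ∀ P : ValuationSubring (AlgebraicClosure ℚ),
      P.LiesOverPrime ℓ → ∀ σ : Γℚ, P.IsFrobeniusAt σ ℓ → LinearMap.det (ρ.ρ σ) = (ℓ : A)) :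
    ρ.DetIsCyclotomic p := by
  have : ∀ n, NeZero (p ^ n) := fun n => ⟨pow_ne_zero _ (Fact.out : p.Prime).ne_zero⟩
  refine ⟨hpA, fun n σ a ha => DefCond.mem_of_forall_mk_mem _ _ fun k => ?_⟩
  set q := Ideal.Quotient.mk (maximalIdeal A ^ (k + 1))
  obtain ⟨L₁, hL₁, hdet⟩ := det_sub_mem ρ (k + 1)
  obtain ⟨L₂, hL₂, hcyc⟩ := TraceFn.exists_level_cycExp p n
  set J := (Ideal.span {((p ^ n : ℕ) : A)}).map q with hJ
  have hmod : ∀ i j : ℕ, (i : ZMod (p ^ n)) = (j : ZMod (p ^ n)) →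
      (i : A) - (j : A) ∈ Ideal.span {((p ^ n : ℕ) : A)} := by
    intro i j hij
    obtain ⟨d, hd⟩ := (ZMod.intCast_eq_intCast_iff_dvd_sub (j : ℤ) (i : ℤ) (p ^ n)).mp
      (by push_cast; exact hij.symm)
    refine Ideal.mem_span_singleton'.mpr ⟨(d : A), ?_⟩
    have := congrArg (Int.cast : ℤ → A) hd
    push_cast at this ⊢
    rw [this]; ring
  suffices hall : q (LinearMap.det (ρ.ρ σ) - ((TraceFn.cycExp p n σ).val : A)) ∈ J by
    have h2 : q (((TraceFn.cycExp p n σ).val : A) - a) ∈ J := by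
      refine Ideal.mem_map_of_mem q (hmod _ _ ?_)
      rw [ZMod.natCast_val, ZMod.cast_id]
      exact TraceFn.cycExp_eq_of_apply p n (ha _ (TraceFn.zetaPow_spec p n).pow_eq_one)
    have h3 := J.add_mem hall h2
    rwa [← map_add, sub_add_sub_cancel] at h3
  haveI := hL₁
  haveI := hL₂
  haveI : FiniteDimensional ℚ ↥(L₁ ⊔ L₂) := IntermediateField.finiteDimensional_sup L₁ L₂
  refine Density.forall_of_forall_frobenius_pow
    (P := fun g => q (LinearMap.det (ρ.ρ g) - ((TraceFn.cycExp p n g).val : A)) ∈ J)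
    (L₁ ⊔ L₂) (fun g h hgh hg => ?_) (insert p S) (fun ℓ hℓ hℓS P hP τ hτ i => ?_) σ
  · have e : TraceFn.cycExp p n g = TraceFn.cycExp p n h := by
      rw [show g = h * (h⁻¹ * g) by group, map_mul, hcyc (h⁻¹ * g) (fun x hx => by
        rw [AlgEquiv.mul_apply, hgh x (le_sup_right (a := L₁) (b := L₂) hx)]
        exact h.symm_apply_apply x), mul_one]
    have e2 : q (LinearMap.det (ρ.ρ g)) = q (LinearMap.det (ρ.ρ h)) :=
      Ideal.Quotient.eq.mpr (hdet g h fun x hx => hgh x (le_sup_left (a := L₁) (b := L₂) hx))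
    rw [map_sub, ← e2, ← e, ← map_sub]
    exact hg
  · obtain ⟨hℓp, hℓS⟩ := not_or.mp (fun h => hℓS (Finset.mem_insert.mpr h))
    rw [map_pow, map_pow, hF ℓ hℓ hℓS P hP τ hτ, ← Nat.cast_pow]
    refine Ideal.mem_map_of_mem q (hmod _ _ ?_)
    rw [ZMod.natCast_val, ZMod.cast_id, map_pow, TraceFn.cycExp_frobenius hℓ hℓp hP hτ,
      Nat.cast_pow]

end Fermat.Agent.R59.TopRep
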