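import Fermat.Agent.R59.TopRep.Strict
import Fermat.Agent.R59.Interfaces
import Fermat.Agent.R59.Core
import Fermat.Agent.Tangent.Conditions

/-!
# The residual inputs at `p` of the representation of full level

* `residual_isOrdinaryAt_of_setup`: for the ordinary kinds the residual representation is ordinary,
  the hypothesis of the ordinarity theorem for level exactly divisible by `p`.
* `isStrictOrdinaryAt_of_not_flat`: ordinarity becomes strict when the residual representation of
  the problem is not flat at `p`.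
-/

set_option autoImplicit false

noncomputable section

open IsLocalRing
open scoped TensorProduct

namespace Fermat.Agent.R59.TopRep

local notation "Γℚ" => (AlgebraicClosure ℚ ≃ₐ[ℚ] AlgebraicClosure ℚ)

/-- `IsOrdinaryAt` for an action on a module. -/
def HasOrdLines (p : ℕ) (A : Type) [CommRing A] {V : Type} [AddCommGroup V] [Module A V]
    (f : Γℚ → Module.End A V) : Prop :=
  ∀ P : ValuationSubring (AlgebraicClosure ℚ), P.LiesOverPrime p →
    ∃ L : Submodule A V,
      (∃ b : Module.Basis (Fin 2) A V, L = A ∙ b 0) ∧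
      (∀ σ ∈ P.decompositionSubgroup ℚ, ∀ v ∈ L, f σ v ∈ L) ∧
      (∀ σ ∈ P.inertiaSubgroupIn ℚ, ∀ v : V, f σ v - v ∈ L)

theorem HasOrdLines.baseChange {p : ℕ} {A : Type} [CommRing A] {V : Type} [AddCommGroup V]
    [Module A V] {f : Γℚ → Module.End A V} (h : HasOrdLines p A f) (B : Type) [CommRing B]
    [Algebra A B] : HasOrdLines p B fun σ => (f σ).baseChange B := by
  intro P hP
  obtain ⟨L, ⟨b, hb⟩, hD, hI⟩ := h P hP
  have hmem : ∀ (c : B) (w : V), w ∈ L → c ⊗ₜ[A] w ∈ B ∙ (b.baseChange B) 0 := fun c w hw => by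
    rw [hb, Submodule.mem_span_singleton] at hw
    obtain ⟨r, rfl⟩ := hw
    refine Submodule.mem_span_singleton.mpr ⟨r • c, ?_⟩
    rw [Module.Basis.baseChange_apply, TensorProduct.smul_tmul', smul_eq_mul, mul_one,
      TensorProduct.smul_tmul]
  refine ⟨B ∙ (b.baseChange B) 0, ⟨b.baseChange B, rfl⟩, fun σ hσ v hv => ?_, fun σ hσ v => ?_⟩
  · obtain ⟨c, rfl⟩ := Submodule.mem_span_singleton.mp hv
    have h0 : (f σ).baseChange B ((b.baseChange B) 0) = (1 : B) ⊗ₜ[A] f σ (b 0) := by
      rw [Module.Basis.baseChange_apply, LinearMap.baseChange_tmul]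
    rw [map_smul, h0]
    exact Submodule.smul_mem _ _ (hmem _ _ (hD σ hσ _ (hb ▸ Submodule.mem_span_singleton_self _)))
  · induction v using TensorProduct.induction_on with
    | zero => simp
    | tmul c w =>
      rw [LinearMap.baseChange_tmul, ← TensorProduct.tmul_sub]
      exact hmem _ _ (hI σ hσ w)
    | add x y hx hy =>
      rw [map_add, add_sub_add_comm]
      exact add_mem hx hy

theorem HasOrdLines.of_equiv {p : ℕ} {A : Type} [CommRing A] {V V' : Type} [AddCommGroup V]
    [Module A V] [AddCommGroup V'] [Module A V'] {f : Γℚ → Module.End A V}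
    {f' : Γℚ → Module.End A V'} (h : HasOrdLines p A f) (e : V ≃ₗ[A] V')
    (he : ∀ σ v, e (f σ v) = f' σ (e v)) : HasOrdLines p A f' := by
  intro P hP
  obtain ⟨L, ⟨b, hb⟩, hD, hI⟩ := h P hP
  refine ⟨L.map e.toLinearMap, ⟨b.map e, by
    rw [hb, Submodule.map_span, Set.image_singleton]; rfl⟩, ?_, ?_⟩
  · rintro σ hσ _ ⟨v, hv, rfl⟩
    exact ⟨_, hD σ hσ v hv, he σ v⟩
  · intro σ hσ v
    obtain ⟨w, rfl⟩ := e.surjective v
    exact ⟨_, hI σ hσ w, by simp [map_sub, he]⟩

/-- Base change along the identity. -/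
theorem baseChangeAlong_id_isEquiv {k : Type} [Field k] {ψ : k →+* k} (h : ψ = RingHom.id k)
    (ρ : ResidualGaloisRep k) : (ρ.baseChangeAlong ψ).IsEquiv ρ := by
  subst h
  exact ⟨{ toLinearEquiv := TensorProduct.lid k ρ.V
           map_apply := fun σ x => by
            show TensorProduct.lid k ρ.V ((ρ.ρ σ).baseChange k x) = ρ.ρ σ (TensorProduct.lid k ρ.V x)
            induction x using TensorProduct.induction_on with
            | zero => simp
            | tmul c v => simp
            | add x y hx hy => simp only [map_add, hx, hy] }⟩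

theorem residueFieldMap_algebraMap_self {A : Type} [CommRing A] [IsLocalRing A] :
    ResidueField.map (algebraMap A A) = RingHom.id (ResidueField A) :=
  Ideal.Quotient.ringHom_ext (RingHom.ext fun a => ResidueField.map_residue (algebraMap A A) a)

variable {W : WeierstrassCurve ℤ} {p : ℕ} {k : Kind} (U : Setup W p k)
  {T : Type} [CommRing T] [IsLocalRing T] [Algebra U.𝒪 T] [IsLocalHom (algebraMap U.𝒪 T)]
  {ρ : GaloisRepAdic T}

theorem residual_isOrdinaryAt_of_setup (hk : k ≠ .flat)
    (hres : ρ.residual.IsEquiv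
      (U.ρbar.baseChangeAlong (ResidueField.map (algebraMap U.𝒪 T)))) :
    (GaloisRepAdic.ofResidualGaloisRep ρ.residual).IsOrdinaryAt p := by
  have hcurve : U.curve.IsOrdinaryAt p := by
    have h := U.curve_cond.1
    cases k with
    | flat => exact absurd rfl hk
    | strict => exact h.2.1.isOrdinaryAt
    | ord => exact h.2.1
  have h1 : HasOrdLines p (ResidueField U.𝒪) fun σ => U.curve.residual.ρ σ :=
    HasOrdLines.baseChange (f := fun σ => U.curve.ρ σ) hcurve (ResidueField U.𝒪)
  obtain ⟨e1⟩ := U.isCurveLift.residual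
  obtain ⟨e2⟩ := baseChangeAlong_id_isEquiv (residueFieldMap_algebraMap_self (A := U.𝒪)) U.ρbar
  have h2 : HasOrdLines p (ResidueField U.𝒪) fun σ => U.ρbar.ρ σ :=
    h1.of_equiv (e1.trans e2).toLinearEquiv fun σ v => (e1.trans e2).map_apply σ v
  letI : Algebra (ResidueField U.𝒪) (ResidueField T) :=
    (ResidueField.map (algebraMap U.𝒪 T)).toAlgebra
  obtain ⟨e3⟩ := hres
  exact (h2.baseChange (ResidueField T)).of_equiv e3.symm.toLinearEquiv
    fun σ v => e3.symm.map_apply σ v

/-- Flatness of the residual representation descends along a bijection of residue fields. -/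
theorem isFlatAt_of_residual_isFlatAt
    (hsurj : Function.Surjective (residue T ∘ algebraMap U.𝒪 T))
    (hres : ρ.residual.IsEquiv
      (U.ρbar.baseChangeAlong (ResidueField.map (algebraMap U.𝒪 T))))
    (hflat : (GaloisRepAdic.ofResidualGaloisRep ρ.residual).IsFlatAt p) :
    (GaloisRepAdic.ofResidualGaloisRep U.ρbar).IsFlatAt p := by
  have hg : Function.Bijective (ResidueField.map (algebraMap U.𝒪 T)) := by
    refine ⟨RingHom.injective _, fun y => ?_⟩
    obtain ⟨c, rfl⟩ := hsurj y
    exact ⟨residue U.𝒪 c, ResidueField.map_residue _ c⟩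
  set g := ResidueField.map (algebraMap U.𝒪 T) with hgdef
  let gi : ResidueField T →+* ResidueField U.𝒪 := ((RingEquiv.ofBijective g hg).symm : _ ≃+* _)
  have hcomp : gi.comp g = RingHom.id _ :=
    RingHom.ext fun x => (RingEquiv.ofBijective g hg).symm_apply_apply x
  have hgl : IsLocalHom g := inferInstance
  have hil : IsLocalHom gi := ⟨fun x hx => by
    refine isUnit_iff_ne_zero.mpr fun h0 => ?_
    rw [h0, map_zero] at hx
    exact not_isUnit_zero hx⟩
  have hcl : IsLocalHom (gi.comp g) := @RingHom.isLocalHom_comp _ _ _ _ _ _ gi g hil hgl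
  obtain ⟨e⟩ := hres
  have h1 : ((GaloisRepAdic.ofResidualGaloisRep U.ρbar).baseChangeAlong g hgl).IsFlatAt p :=
    Tangent.isFlatAt_of_isEquiv
      (ρ' := (GaloisRepAdic.ofResidualGaloisRep U.ρbar).baseChangeAlong g hgl)
      ⟨{ toLinearEquiv := e.toLinearEquiv, map_apply := e.map_apply }⟩ hflat
  have h2 := Tangent.isFlatAt_baseChangeAlong gi hil (RingEquiv.surjective _) h1
  have e2 := baseChangeAlong_comp_isEquiv g hgl gi hil hcl (GaloisRepAdic.ofResidualGaloisRep U.ρbar)
  obtain ⟨e3⟩ := baseChangeAlong_id_isEquiv hcomp U.ρbar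
  exact Tangent.isFlatAt_of_isEquiv
    ⟨{ toLinearEquiv := e3.toLinearEquiv, map_apply := e3.map_apply }⟩
    (Tangent.isFlatAt_of_isEquiv e2 h2)

/-- Ordinarity is strict when the residual representation of the problem is not flat at `p`. -/
theorem isStrictOrdinaryAt_of_not_flat [Fact p.Prime] [IsNoetherianRing T]
    (hsurj : Function.Surjective (residue T ∘ algebraMap U.𝒪 T))
    (hres : ρ.residual.IsEquiv
      (U.ρbar.baseChangeAlong (ResidueField.map (algebraMap U.𝒪 T))))
    (hdet : ρ.DetIsCyclotomic p) (hord : ρ.IsOrdinaryAt p)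
    (hnf : ¬ (GaloisRepAdic.ofResidualGaloisRep U.ρbar).IsFlatAt p) :
    ρ.IsStrictOrdinaryAt p := by
  haveI : Finite (ResidueField T) :=
    Finite.of_surjective (ResidueField.map (algebraMap U.𝒪 T)) fun y => by
      obtain ⟨c, rfl⟩ := hsurj y
      exact ⟨residue U.𝒪 c, ResidueField.map_residue _ c⟩
  exact (isStrictOrdinaryAt_or_residual_isFlatAt hdet hord).resolve_right fun h =>
    hnf (isFlatAt_of_residual_isFlatAt U hsurj hres h)

/-- The residual representation of a strict problem is not flat at `p`. -/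
def StmtStrictNotFlat : Prop :=
  ∀ (W : WeierstrassCurve ℤ) (p : ℕ), CoreHyp W p .strict → ∀ U : Setup W p .strict,
    ¬ (GaloisRepAdic.ofResidualGaloisRep U.ρbar).IsFlatAt p

end Fermat.Agent.R59.TopRep
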