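import Fermat.Agent.R59.TopSplit
import Fermat.Agent.R59.TraceEquiv
import Fermat.Agent.R59.CotGrowth.Restrict
import Fermat.Agent.R59.TopRep.Det
import Fermat.Agent.R59.TopRep.Residual
import Fermat.Agent.Datum.Inputs
import Fermat.Prelude.Def_GaloisRep_LocalConditions

/-!
# The Galois side at full level

`stmtTopRep_of` proves `StmtTopRep` from the types of S31, S32, S33, S34, S37 and the non-flatness
of the residual representation of a strict problem.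
-/

set_option autoImplicit false
set_option synthInstance.maxHeartbeats 400000

noncomputable section

open IsLocalRing CuspForm Polynomial
open scoped Classical

namespace Fermat.Agent.R59.TopRep

local notation "Γℚ" => (AlgebraicClosure ℚ ≃ₐ[ℚ] AlgebraicClosure ℚ)

/-- The type of S31. -/
def Stmt31 : Prop :=
  ∀ {p : ℕ} {N : ℕ} [NeZero N] {S : Finset ℕ}
    {𝒪 : Type} [CommRing 𝒪] [IsDomain 𝒪] [IsDiscreteValuationRing 𝒪]
    [IsAdicComplete (maximalIdeal 𝒪) 𝒪]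
    {θ : CuspForm.heckeAlgebra N 2 (↑S : Set ℕ) →+* ResidueField 𝒪}
    {T : Type} [CommRing T] [IsLocalRing T] [IsNoetherianRing T]
    [IsAdicComplete (maximalIdeal T) T] [Algebra 𝒪 T] [IsLocalHom (algebraMap 𝒪 T)]
    [Module.Finite 𝒪 T] [Module.Free 𝒪 T],
    p.Prime → (p : 𝒪) ∈ maximalIdeal 𝒪 → p ∈ S → (∀ q : ℕ, q.Prime → q ∣ N → q ∈ S) →
    ∀ H : CuspForm.HeckeGaloisRepDatum N (↑S : Set ℕ) 𝒪 θ T,
    ∀ q : ℕ, q.Prime → q ∉ S → H.ρ.IsUnramifiedAt q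

/-- The type of S32. -/
def Stmt32 : Prop :=
  ∀ {p : ℕ} {N : ℕ} [NeZero N] {S : Finset ℕ}
    {𝒪 : Type} [CommRing 𝒪] [IsDomain 𝒪] [IsDiscreteValuationRing 𝒪]
    [IsAdicComplete (maximalIdeal 𝒪) 𝒪]
    {θ : CuspForm.heckeAlgebra N 2 (↑S : Set ℕ) →+* ResidueField 𝒪}
    {T : Type} [CommRing T] [IsLocalRing T] [IsNoetherianRing T]
    [IsAdicComplete (maximalIdeal T) T] [Algebra 𝒪 T] [IsLocalHom (algebraMap 𝒪 T)]
    [Module.Finite 𝒪 T] [Module.Free 𝒪 T] [Finite (ResidueField 𝒪)] [CharZero 𝒪],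
    p.Prime → p ≠ 2 → (p : 𝒪) ∈ maximalIdeal 𝒪 → ¬ p ∣ N → p ∈ S →
    (∀ q : ℕ, q.Prime → q ∣ N → q ∈ S) →
    ∀ H : CuspForm.HeckeGaloisRepDatum N (↑S : Set ℕ) 𝒪 θ T, H.ρ.IsFlatAt p

/-- The type of S33. -/
def Stmt33 : Prop :=
  ∀ {p : ℕ} {N : ℕ} [NeZero N] {S : Finset ℕ}
    {𝒪 : Type} [CommRing 𝒪] [IsDomain 𝒪] [IsDiscreteValuationRing 𝒪]
    [IsAdicComplete (maximalIdeal 𝒪) 𝒪]
    {θ : CuspForm.heckeAlgebra N 2 (↑S : Set ℕ) →+* ResidueField 𝒪}
    {T : Type} [CommRing T] [IsLocalRing T] [IsNoetherianRing T]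
    [IsAdicComplete (maximalIdeal T) T] [Algebra 𝒪 T] [IsLocalHom (algebraMap 𝒪 T)]
    [Module.Finite 𝒪 T] [Module.Free 𝒪 T] [Finite (ResidueField 𝒪)] [CharZero 𝒪],
    p.Prime → p ≠ 2 → (p : 𝒪) ∈ maximalIdeal 𝒪 → p ∣ N ∧ ¬ p ^ 2 ∣ N →
    (∀ q : ℕ, q.Prime → q ∣ N → q ∈ S) →
    ∀ H : CuspForm.HeckeGaloisRepDatum N (↑S : Set ℕ) 𝒪 θ T,
      (GaloisRepAdic.ofResidualGaloisRep H.ρ.residual).IsOrdinaryAt p → H.ρ.IsOrdinaryAt p

/-- The type of S34. -/
def Stmt34 : Prop :=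
  ∀ {𝒪 : Type} [CommRing 𝒪] [IsDomain 𝒪] [IsDiscreteValuationRing 𝒪]
    [IsAdicComplete (maximalIdeal 𝒪) 𝒪] [Finite (ResidueField 𝒪)] [CharZero 𝒪]
    {p : ℕ}, p.Prime → (p : 𝒪) ∈ maximalIdeal 𝒪 →
    ∀ {N : ℕ} [NeZero N] {S : Finset ℕ}, p ∈ S → (∀ q : ℕ, q.Prime → q ∣ N → q ∈ S) →
    ∀ {θ : CuspForm.heckeAlgebra N 2 (↑S : Set ℕ) →+* ResidueField 𝒪}
      {T : Type} [CommRing T] [IsLocalRing T] [IsNoetherianRing T]
      [IsAdicComplete (maximalIdeal T) T] [Algebra 𝒪 T] [IsLocalHom (algebraMap 𝒪 T)]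
      [Module.Finite 𝒪 T] [Module.Free 𝒪 T]
      (H : CuspForm.HeckeGaloisRepDatum N (↑S : Set ℕ) 𝒪 θ T)
      (q : ℕ), q.Prime → q ≠ p → q ∣ N → ¬ q ^ 2 ∣ N → H.ρ.IsUnipotentOnInertiaAt q

/-- The type of S37. -/
def Stmt37 : Prop :=
  ∀ (N p : ℕ) [NeZero N], ModularCurve.HeckeOperatorsCommuteBar N →
    letI := ModularCurve.heckeModuleBar N
    ∀ (_ : SMulCommClass (AlgebraicClosure ℚ ≃ₐ[ℚ] AlgebraicClosure ℚ) ModularCurve.HeckeAlg
      (ModularCurve.JZero N)),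
      ModularCurve.SpecializationExists (K := ℚ) (L := AlgebraicClosure ℚ) N p
        (ModularCurve.JZero N)

variable {W : WeierstrassCurve ℤ} {p : ℕ}

/-- `p` divides the full level of an ordinary kind exactly once. -/
theorem not_sq_dvd_fullLevel (hp : p.Prime) {k : Kind} :
    ¬ p ^ 2 ∣ fullLevel W p k := by
  intro h
  have hmin : ¬ p ∣ minLevel W p * (∏ q ∈ raisePrimes W p, q) ^ 2 := fun hd => by
    have h2 : p ∣ fullLevel W p .flat := by
      rw [fullLevel, Kind.pExp, pow_zero, mul_one]; exact hd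
    rcases (dvd_fullLevel_iff W p hp .flat hp).mp h2 with h3 | ⟨-, h3⟩
    · rcases Finset.mem_union.mp h3 with h4 | h4 <;>
        exact (Finset.mem_filter.mp h4).2.1 rfl
    · exact h3 rfl
  have hle : k.pExp ≤ 1 := by cases k <;> simp [Kind.pExp]
  have hp2 : p ^ 2 ∣ minLevel W p * (∏ q ∈ raisePrimes W p, q) ^ 2 * p ^ 1 :=
    h.trans (mul_dvd_mul_left _ (pow_dvd_pow p hle))
  rw [pow_one, sq p, mul_dvd_mul_iff_right hp.ne_zero] at hp2
  exact hmin hp2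

/-- The ramified primes divide the full level exactly once. -/
theorem not_sq_dvd_fullLevel_of_mem (hp : p.Prime) (k : Kind) {q : ℕ} (hq : q.Prime)
    (hqm : q ∈ ramPrimes W p) : ¬ q ^ 2 ∣ fullLevel W p k := by
  have hqp : q ≠ p := (Finset.mem_filter.mp hqm).2.1
  have hnr : ¬ q ∣ (∏ x ∈ raisePrimes W p, x) ^ 2 := fun h => by
    obtain ⟨x, hx, hqx⟩ := (hq.prime.dvd_finsetProd_iff _).mp (hq.dvd_of_dvd_pow h)
    rw [(Nat.prime_dvd_prime_iff_eq hq (prime_of_mem_raisePrimes W p hx)).mp hqx] at hqm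
    exact (Finset.mem_filter.mp hqm).2.2 (Finset.mem_filter.mp hx).2.2
  have hnp : ¬ q ∣ p ^ k.pExp := fun h =>
    hqp ((Nat.prime_dvd_prime_iff_eq hq hp).mp (hq.dvd_of_dvd_pow h))
  intro h
  rw [fullLevel, mul_assoc] at h
  have hc : (q ^ 2).Coprime ((∏ x ∈ raisePrimes W p, x) ^ 2 * p ^ k.pExp) :=
    ((hq.coprime_iff_not_dvd.mpr fun hd => (hq.dvd_mul.mp hd).elim hnr hnp)).pow_left 2
  have h2 := hc.dvd_of_dvd_mul_right h
  rw [minLevel, ← Finset.mul_prod_erase _ _ hqm, sq, mul_dvd_mul_iff_left hq.ne_zero] at h2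
  obtain ⟨x, hx, hqx⟩ := (hq.prime.dvd_finsetProd_iff _).mp h2
  obtain ⟨hxne, hxm⟩ := Finset.mem_erase.mp hx
  exact hxne ((Nat.prime_dvd_prime_iff_eq hq
    (Nat.prime_of_mem_primeFactors (Finset.mem_filter.mp hxm).1)).mp hqx).symm

/-- Equivalent residual representations have equal characteristic polynomials. -/
theorem charpoly_of_isEquiv {k : Type} [Field k] {ρ ρ' : ResidualGaloisRep k}
    (e : ResidualGaloisRep.Equiv ρ ρ') (σ : Γℚ) :
    LinearMap.charpoly (ρ'.ρ σ) = LinearMap.charpoly (ρ.ρ σ) := by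
  have h : ρ'.ρ σ = e.toLinearEquiv.conj (ρ.ρ σ) := by
    refine LinearMap.ext fun x => ?_
    obtain ⟨y, rfl⟩ := e.toLinearEquiv.surjective x
    rw [LinearEquiv.conj_apply_apply, LinearEquiv.symm_apply_apply]
    exact (e.map_apply σ y).symm
  rw [h]
  exact LinearEquiv.charpoly_conj _ _

theorem charpoly_residual {A : Type} [CommRing A] [IsLocalRing A] (ρ : GaloisRepAdic A) (σ : Γℚ) :
    LinearMap.charpoly (ρ.residual.ρ σ) = (LinearMap.charpoly (ρ.ρ σ)).map (residue A) := by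
  show LinearMap.charpoly ((ρ.ρ σ).baseChange (ResidueField A)) = _
  rw [LinearMap.charpoly_baseChange, ResidueField.algebraMap_eq]

/-- **The Galois side at full level.** -/
theorem stmtTopRep_of (h31 : Stmt31) (h32 : Stmt32) (h33 : Stmt33) (h34 : Stmt34) (h37 : Stmt37)
    (hnf : StmtStrictNotFlat) : StmtTopRep := by
  intro W p k h U _ _ θ hθ
  have hp : p.Prime := by rcases h.1 with rfl | rfl <;> decide
  have hp2 : p ≠ 2 := by rcases h.1 with rfl | rfl <;> decide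
  have : Fact p.Prime := ⟨hp⟩
  have hpS : p ∈ fullSet W p := Finset.mem_insert_self _ _
  have hNS : ∀ q : ℕ, q.Prime → q ∣ fullLevel W p k → q ∈ fullSet W p :=
    fun q hq hd => mem_fullSet_of_dvd hp hq hd
  obtain ⟨e1⟩ := U.base_residual
  obtain ⟨e2⟩ := baseChangeAlong_id_isEquiv (residueFieldMap_algebraMap_self (A := U.𝒪)) U.ρbar
  obtain ⟨H, hπ, hres⟩ := Datum.exists_heckeGaloisRepDatum_of_specializationExists
    (N := fullLevel W p k) (S := (↑(fullSet W p) : Set ℕ)) (p := p) (𝒪 := U.𝒪)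
    (h37 (fullLevel W p k) p) hp2 U.p_mem (Finset.mem_coe.mpr hpS) (Finset.finite_toSet _) θ
    U.ρbar U.absIrr (minSet W p) fun ℓ hℓ hℓN hℓS hℓS₀ A hA σ hσ => by
      rw [charpoly_of_isEquiv (e1.trans e2) σ, charpoly_residual,
        U.base_charpoly ℓ hℓ hℓS₀ A hA σ hσ, hθ ℓ hℓ hℓN hℓS]
      simp
  have hdet : H.ρ.DetIsCyclotomic p := by
    refine detIsCyclotomic_of_frobenius H.ρ ?_ (fullSet W p) fun ℓ hℓ hℓS P hP σ hσ => ?_
    · rw [← map_natCast (algebraMap U.𝒪 (U.TopLocal θ))]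
      exact map_nonunit _ _ U.p_mem
    · rw [LinearMap.det_eq_sign_charpoly_coeff, H.charpoly_frob ℓ hℓ
        (fun hd => hℓS (hNS ℓ hℓ hd)) (fun hS => hℓS (Finset.mem_coe.mp hS)) P hP σ hσ,
        H.ρ.finrank_eq]
      simp
  have hunr : ∀ q : ℕ, q.Prime → q ∉ fullSet W p → H.ρ.IsUnramifiedAt q :=
    h31 hp U.p_mem hpS hNS H
  have hsurj : Function.Surjective (residue (U.TopLocal θ) ∘ algebraMap U.𝒪 (U.TopLocal θ)) :=
    H.residue_surjective
  refine ⟨H, hπ, ⟨?_, fun q hq hqP hqp => ?_⟩, hres, fun π hπT hloc => ?_⟩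
  · cases k with
    | flat =>
      refine ⟨hdet, h32 hp hp2 U.p_mem (fun hd => ?_) hpS hNS H, hunr⟩
      rcases (dvd_fullLevel_iff W p hp .flat hp).mp hd with h3 | ⟨-, h3⟩
      · rcases Finset.mem_union.mp h3 with h4 | h4 <;>
          exact (Finset.mem_filter.mp h4).2.1 rfl
      · exact h3 rfl
    | strict =>
      have hord : H.ρ.IsOrdinaryAt p := h33 hp hp2 U.p_mem
        ⟨(dvd_fullLevel_iff W p hp .strict hp).mpr (Or.inr ⟨rfl, by decide⟩),
          not_sq_dvd_fullLevel hp⟩ hNS H (residual_isOrdinaryAt_of_setup U (by decide) hres)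
      exact ⟨hdet, isStrictOrdinaryAt_of_not_flat U hsurj hres hdet hord (hnf W p h U), hunr⟩
    | ord =>
      have hord : H.ρ.IsOrdinaryAt p := h33 hp hp2 U.p_mem
        ⟨(dvd_fullLevel_iff W p hp .ord hp).mpr (Or.inr ⟨rfl, by decide⟩),
          not_sq_dvd_fullLevel hp⟩ hNS H (residual_isOrdinaryAt_of_setup U (by decide) hres)
      exact ⟨hdet, hord, hunr⟩
  · have hmem : q ∈ ramPrimes W p := (Finset.mem_insert.mp hq).resolve_left hqp
    exact h34 hp U.p_mem hpS hNS H q hqP hqp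
      ((dvd_fullLevel_iff W p hp k hqP).mpr (Or.inl (Finset.mem_union_left _ hmem)))
      (not_sq_dvd_fullLevel_of_mem hp k hqP hmem)
  · refine isEquiv_of_frobenius_trace hp2 U.absIrr
      (TWGal.residual_baseChangeAlong_isEquiv H.ρ hres π hloc)
      (Tangent.detIsCyclotomic_baseChangeAlong _ hloc hdet)
      (cond_detIsCyclotomic U.base_cond) (fullSet W p) fun ℓ hℓ hℓS P hP σ hσ => ?_
    have hℓm : ℓ ∉ minSet W p := fun hm => hℓS (by
      rcases Finset.mem_insert.mp hm with hm | hm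
      · exact hm ▸ hpS
      · exact Finset.mem_insert_of_mem (Finset.mem_union_left _ hm))
    rw [trace_baseChangeAlong, trace_eq_of_charpoly (H.charpoly_frob ℓ hℓ
      (fun hd => hℓS (hNS ℓ hℓ hd)) (fun hS => hℓS (Finset.mem_coe.mp hS)) P hP σ hσ),
      trace_eq_of_charpoly (U.base_charpoly ℓ hℓ hℓm P hP σ hσ)]
    exact hπT ℓ hℓ (fun hd => hℓS (hNS ℓ hℓ hd)) (fun hS => hℓS (Finset.mem_coe.mp hS))

end Fermat.Agent.R59.TopRep
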