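import Fermat.Agent.R59.TopRep.Residual
import Fermat.Agent.R59.TraceEquiv
import Fermat.Agent.R59.Setup.Residual
import Fermat.Agent.R59.Assembly
import Fermat.Agent.FlatTangent.PairModel

/-!
# The residual representation of a strict problem is not flat at `p`

* `isEquiv_curveResidual`: the residual representation of a problem is `E[p] ⊗ k`.
* `hasFlatModelAt_tors_of_flat`, `isFlatAt_residualOf`: its flatness at `p` descends to `E[p]`.
* `stmtStrictNotFlat_of`: level lowering at `p` for flat `E[p]` excludes flatness in strict problems.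
-/

set_option autoImplicit false

noncomputable section

open IsLocalRing
open scoped TensorProduct WeierstrassCurve.Affine

namespace Fermat.Agent.R59.TopRep

local notation "Γℚ" => (AlgebraicClosure ℚ ≃ₐ[ℚ] AlgebraicClosure ℚ)

/-- Equivalent residual representations have the same traces. -/
theorem trace_eq_of_residual_isEquiv {k : Type} [Field k] {ρ ρ' : ResidualGaloisRep k}
    (h : ρ.IsEquiv ρ') (σ : Γℚ) :
    LinearMap.trace k ρ.V (ρ.ρ σ) = LinearMap.trace k ρ'.V (ρ'.ρ σ) := by
  obtain ⟨e⟩ := h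
  have e3 : ρ'.ρ σ = e.toLinearEquiv.conj (ρ.ρ σ) := by
    refine LinearMap.ext fun x => ?_
    obtain ⟨y, rfl⟩ := e.toLinearEquiv.surjective x
    rw [LinearEquiv.conj_apply_apply, LinearEquiv.symm_apply_apply]
    exact (e.map_apply σ y).symm
  rw [e3, LinearMap.trace_conj']

/-- Base change along equal maps. -/
theorem baseChangeAlong_congr {k k' : Type} [Field k] [Field k'] {φ ψ : k →+* k'} (h : φ = ψ)
    (ρ : ResidualGaloisRep k) : (ρ.baseChangeAlong φ).IsEquiv (ρ.baseChangeAlong ψ) := by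
  subst h
  exact ⟨{ toLinearEquiv := LinearEquiv.refl k' _, map_apply := fun _ _ => rfl }⟩

/-- Base change and base change along the structure map agree. -/
theorem baseChange_isEquiv_along {k k' : Type} [Field k] [Field k'] [a : Algebra k k']
    (ρ : ResidualGaloisRep k) :
    (ρ.baseChange k').IsEquiv (ρ.baseChangeAlong (algebraMap k k')) := by
  have h : (algebraMap k k').toAlgebra = a := Algebra.algebra_ext _ _ fun _ => rfl
  unfold ResidualGaloisRep.baseChangeAlong
  rw [h]
  exact ⟨{ toLinearEquiv := LinearEquiv.refl k' _, map_apply := fun _ _ => rfl }⟩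

/-- The residual representation of a representation over a field. -/
theorem residual_ofResidual_isEquiv {k : Type} [Field k] (ρ : ResidualGaloisRep k) :
    (GaloisRepAdic.ofResidualGaloisRep ρ).residual.IsEquiv
      (ρ.baseChangeAlong (residue k)) := by
  obtain ⟨e⟩ := baseChange_isEquiv_along (k' := ResidueField k) ρ
  exact ⟨(show (GaloisRepAdic.ofResidualGaloisRep ρ).residual.Equiv (ρ.baseChange (ResidueField k))
    from { toLinearEquiv := LinearEquiv.refl _ _, map_apply := fun _ _ => rfl }).trans e⟩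

variable {W : WeierstrassCurve ℤ} {p : ℕ} {k : Kind} (U : Setup W p k)

/-- The residual representation of a problem has the Frobenius traces of the model. -/
theorem trace_rhobar {ℓ : ℕ} (hℓ : ℓ.Prime) (hgood : W.IsGoodPrimeFor ℓ) (hℓp : ℓ ≠ p)
    {A : ValuationSubring (AlgebraicClosure ℚ)} (hA : A.LiesOverPrime ℓ) {σ : Γℚ}
    (hσ : A.IsFrobeniusAt σ ℓ) :
    LinearMap.trace (ResidueField U.𝒪) U.ρbar.V (U.ρbar.ρ σ) =
      ((W.apOfModel ℓ : ℤ) : ResidueField U.𝒪) := by
  obtain ⟨e1⟩ := U.isCurveLift.residual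
  obtain ⟨e2⟩ := baseChangeAlong_id_isEquiv (residueFieldMap_algebraMap_self (A := U.𝒪)) U.ρbar
  rw [← trace_eq_of_residual_isEquiv ⟨e1.trans e2⟩ σ, (CondLevel.trace_det_residual U.curve σ).1,
    U.isCurveLift.trace ℓ hℓ hgood hℓp A hA σ hσ, map_intCast]

theorem charP_residueField_setup [Fact p.Prime] : CharP (ResidueField U.𝒪) p :=
  CondLevel.charP_residueField p U.p_mem

/-- The residual representation of a problem is `E[p] ⊗ k`. -/
theorem isEquiv_curveResidual [Fact p.Prime] [CharP (ResidueField U.𝒪) p] (hΔ : W.Δ ≠ 0)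
    (hp2 : p ≠ 2) :
    (GaloisRepAdic.ofResidualGaloisRep U.ρbar).IsEquiv
      (GaloisRepAdic.ofResidualGaloisRep (curveResidual W hΔ p (ResidueField U.𝒪))) := by
  have : IsLocalHom (algebraMap U.𝒪 (ResidueField U.𝒪)) :=
    show IsLocalHom (residue U.𝒪) from inferInstance
  have hres : (GaloisRepAdic.ofResidualGaloisRep U.ρbar).residual.IsEquiv
      (U.ρbar.baseChangeAlong (ResidueField.map (algebraMap U.𝒪 (ResidueField U.𝒪)))) := by
    obtain ⟨e0⟩ := residual_ofResidual_isEquiv U.ρbar
    obtain ⟨e⟩ := baseChangeAlong_congr (φ := residue (ResidueField U.𝒪))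
      (ψ := ResidueField.map (algebraMap U.𝒪 (ResidueField U.𝒪)))
      (Ideal.Quotient.ringHom_ext (RingHom.ext fun a =>
        (ResidueField.map_residue (algebraMap U.𝒪 (ResidueField U.𝒪)) a).symm)) U.ρbar
    exact ⟨e0.trans e⟩
  refine isEquiv_of_frobenius_trace (𝒪 := U.𝒪) hp2 U.absIrr hres U.detCyc
    (curveResidual_detIsCyclotomic W hΔ p _) (insert p W.Δ.natAbs.primeFactors) ?_
  intro ℓ hℓ hS P hP σ hσ
  simp only [Finset.mem_insert, Nat.mem_primeFactors, not_or, not_and, ne_eq] at hS
  have hgood : W.IsGoodPrimeFor ℓ := fun hd =>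
    hS.2 hℓ (Int.natCast_dvd.mp hd) (Int.natAbs_ne_zero.mpr hΔ)
  show LinearMap.trace _ U.ρbar.V (U.ρbar.ρ σ) =
    LinearMap.trace _ (curveResidual W hΔ p (ResidueField U.𝒪)).V
      ((curveResidual W hΔ p (ResidueField U.𝒪)).ρ σ)
  rw [trace_rhobar U hℓ hgood hS.1 hP hσ, trace_curveResidual W hΔ p _,
    (CondLevel.frobenius_trace_det W hΔ hℓ hS.1 hgood hP hσ).1, map_intCast]

omit U in
/-- Flatness of `E[p] ⊗ k` gives a finite flat model of `E[p]`. -/
theorem hasFlatModelAt_tors_of_curveResidual [Fact p.Prime] (hΔ : W.Δ ≠ 0) {F : Type} [Field F]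
    [Finite F] [CharP F p]
    (h : (GaloisRepAdic.ofResidualGaloisRep (curveResidual W hΔ p F)).IsFlatAt p) :
    FFG.HasFlatModelAt p fun σ x => CondLevel.rhoTors W p σ x := by
  have h1 := FlatTangent.hasFlatModelAt_of_isFlatAt h
  let _ : Algebra (ZMod p) F := (ZMod.castHom (dvd_refl p) _).toAlgebra
  exact FFG.HasFlatModelAt.of_injective h1
    (TensorProduct.mk (ZMod p) F (CondLevel.Tors W p) 1).toAddMonoidHom
    (Module.FaithfullyFlat.tensorProduct_mk_injective (B := F) (CondLevel.Tors W p))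
    fun σ x => (LinearMap.baseChange_tmul _ _ _).symm

/-- Flatness of the residual representation gives a finite flat model of `E[p]`. -/
theorem hasFlatModelAt_tors_of_flat [Fact p.Prime] (hΔ : W.Δ ≠ 0) (hp2 : p ≠ 2)
    (h : (GaloisRepAdic.ofResidualGaloisRep U.ρbar).IsFlatAt p) :
    FFG.HasFlatModelAt p fun σ x => CondLevel.rhoTors W p σ x := by
  have := charP_residueField_setup U
  exact hasFlatModelAt_tors_of_curveResidual hΔ
    (Tangent.isFlatAt_of_isEquiv (isEquiv_curveResidual U hΔ hp2) h)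

/-- A finite flat model of `E[p]` makes the representation over `ZMod p` flat. -/
theorem isFlatAt_residualOf [Fact p.Prime]
    {hcard : Nat.card (Submodule.torsionBy ℤ
      ((W.map (Int.castRingHom ℚ))⁄(AlgebraicClosure ℚ)).Point p) = p ^ 2}
    {hker : GaloisFactorsThroughFiniteLevel
      (WeierstrassCurve.Affine.Point.galoisRepModuleEnd (K := AlgebraicClosure ℚ) ℚ
        (W.map (Int.castRingHom ℚ)) p)}
    (h : FFG.HasFlatModelAt p fun σ x => CondLevel.rhoTors W p σ x) :
    (GaloisRepAdic.ofResidualGaloisRep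
      ((W.map (Int.castRingHom ℚ)).residualGaloisRepOf p hcard hker)).IsFlatAt p := by
  refine (FFG.isFlatAt_iff _ p).mpr ⟨Finite.of_surjective _ Ideal.Quotient.mk_surjective,
    fun I _ => ?_⟩
  exact FFG.HasFlatModelAt.of_surjective h (Submodule.mkQ _).toAddMonoidHom
    (Submodule.mkQ_surjective _) fun σ x => rfl

/-- Level lowering at `p` for `E[p]` finite flat at `p`. -/
def StmtFlatLower : Prop :=
  ∀ (W : WeierstrassCurve ℤ) (p : ℕ) [Fact p.Prime], p = 3 ∨ p = 5 → W.Δ ≠ 0 →
    W.IsSemistableModel → W.ModRepIsIrreducible p →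
    FFG.HasFlatModelAt p (fun σ x => CondLevel.rhoTors W p σ x) →
    ∀ M : ℕ, 0 < M → p ∣ M → ¬ p ^ 2 ∣ M →
      (p = 3 → ∃ q, q.Prime ∧ q ∣ M ∧ q % 3 = 2) →
      W.IsResiduallyModularOfLevel p M → W.IsResiduallyModularOfLevel p (M / p)

/-- In a strict problem `E[p]` has no finite flat model at `p`. -/
theorem not_hasFlatModelAt_tors_of_strict (h : StmtFlatLower) {W : WeierstrassCurve ℤ} {p : ℕ}
    (hcore : CoreHyp W p .strict) :
    ¬ FFG.HasFlatModelAt p fun σ x => CondLevel.rhoTors W p σ x := by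
  intro hflat
  obtain ⟨hp35, hΔ, hW, hirr, -, hres, hfree⟩ := hcore
  have hp : p.Prime := by rcases hp35 with rfl | rfl <;> decide
  have : Fact p.Prime := ⟨hp⟩
  have hpmin : ¬ p ∣ minLevel W p := fun hd =>
    ((mem_ramPrimes W p hΔ).mp ((dvd_minLevel_iff W p hp).mp hd)).2.2.1 rfl
  have hpos : 0 < minLevel W p := Nat.pos_of_ne_zero (minLevel_ne_zero W p)
  obtain ⟨q, hqgt, hq, hq3⟩ :=
    Nat.forall_exists_prime_gt_and_modEq (minLevel W p + p) (q := 3) (a := 2) (by norm_num)
      (by norm_num)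
  have hqp : q ≠ p := by omega
  have hqm : ¬ q ∣ minLevel W p := fun hd => by
    have := Nat.le_of_dvd hpos hd
    omega
  have hpl : ¬ p ∣ minLevel W p * q := fun hd =>
    (hp.dvd_mul.mp hd).elim hpmin fun e => hqp ((Nat.prime_dvd_prime_iff_eq hp hq).mp e).symm
  have hpos' : 0 < minLevel W p * q := Nat.mul_pos hpos hq.pos
  have : NeZero (minLevel W p * q * p) := ⟨(Nat.mul_pos hpos' hp.pos).ne'⟩
  have h1 := h W p hp35 hΔ hW hirr hflat
    (minLevel W p * q * p) (Nat.mul_pos hpos' hp.pos) (dvd_mul_left p _)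
    (by rw [pow_two]; exact fun hd => hpl (Nat.dvd_of_mul_dvd_mul_right hp.pos hd))
    (fun _ => ⟨q, hq, dvd_mul_of_dvd_left (dvd_mul_left q _) p, hq3⟩)
    (isResiduallyModularOfLevel_of_dvd (mul_dvd_mul_right (dvd_mul_right _ q) p) hres)
  rw [Nat.mul_div_cancel _ hp.pos] at h1
  refine hfree _ hpos' hpl (fun r hr hd => ?_) h1
  have hle := (hr.pow_dvd_iff_le_factorization hpos'.ne').mp hd
  rw [Nat.factorization_mul hpos.ne' hq.ne_zero, Finsupp.add_apply, hq.factorization,
    Finsupp.single_apply, minLevel,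
    factorization_prod_primes fun x hx => prime_of_mem_ramPrimes W p hx] at hle
  split_ifs at hle <;> omega

/-- The residual representation of a strict problem is not flat at `p`. -/
theorem stmtStrictNotFlat_of (h : StmtFlatLower) : StmtStrictNotFlat := by
  intro W p hcore U hflat
  have : Fact p.Prime := ⟨by rcases hcore.1 with rfl | rfl <;> decide⟩
  exact not_hasFlatModelAt_tors_of_strict h hcore
    (hasFlatModelAt_tors_of_flat U hcore.2.1 (by rcases hcore.1 with rfl | rfl <;> decide) hflat)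

end Fermat.Agent.R59.TopRep
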