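import Fermat.Agent.R59.CotBound.FlatOfUnits
import Fermat.Prelude.Def_GaloisRep_StrictOrdinary
import Fermat.Prelude.Def_GaloisRep_Flat
import Mathlib.RingTheory.Filtration

/-!
# Ordinary with cyclotomic determinant: strict, or residually flat

For an ordinary representation over a complete local ring `T` with cyclotomic determinant, let `z`
be the character on the quotient at a place over `p`.  The valuation obstruction `w` of the
extension class modulo `m ^ (n + 1)` satisfies `(z ^ 2 - 1) w = 0`.  So either some `w` is zero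
modulo `m`, and then the residual representation has unit Kummer elements and is flat at `p`, or
all are units and `z ^ 2 = 1`, which is strict ordinarity.
-/

set_option autoImplicit false
set_option linter.unusedSectionVars false

noncomputable section

open IsLocalRing
open scoped TensorProduct Pointwise

namespace Fermat.Agent.R59.TopRep

open CotBound FlatTangent

variable {p : ℕ} [Fact p.Prime] {T : Type} [CommRing T] [IsLocalRing T] {ρ : GaloisRepAdic T}

/-- The upper right entry in a basis. -/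
def ordY (ρ : GaloisRepAdic T) (b : Module.Basis (Fin 2) T ρ.V) (σ : Gal) : T :=
  b.repr (ρ.ρ σ (b 1)) 0

/-- The lower right entry in a basis. -/
def ordZ (ρ : GaloisRepAdic T) (b : Module.Basis (Fin 2) T ρ.V) (σ : Gal) : T :=
  b.repr (ρ.ρ σ (b 1)) 1

/-- The upper left entry in a basis. -/
def ordX (ρ : GaloisRepAdic T) (b : Module.Basis (Fin 2) T ρ.V) (σ : Gal) : T :=
  b.repr (ρ.ρ σ (b 0)) 0

/-- A basis adapted to an ordinary line at the chosen place. -/
structure IsOrdBasis (p : ℕ) [Fact p.Prime] (ρ : GaloisRepAdic T)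
    (b : Module.Basis (Fin 2) T ρ.V) : Prop where
  stable : ∀ σ ∈ dec p, b.repr (ρ.ρ σ (b 0)) 1 = 0
  inert : ∀ σ ∈ inert p, ordZ ρ b σ = 1

variable {b : Module.Basis (Fin 2) T ρ.V}

theorem IsOrdBasis.apply_zero (h : IsOrdBasis p ρ b) {σ : Gal} (hσ : σ ∈ dec p) :
    ρ.ρ σ (b 0) = ordX ρ b σ • b 0 := by
  conv_lhs => rw [← b.sum_repr (ρ.ρ σ (b 0))]
  rw [Fin.sum_univ_two, h.stable σ hσ, zero_smul, add_zero]
  rfl

theorem apply_one (σ : Gal) : ρ.ρ σ (b 1) = ordY ρ b σ • b 0 + ordZ ρ b σ • b 1 := by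
  conv_lhs => rw [← b.sum_repr (ρ.ρ σ (b 1))]
  rw [Fin.sum_univ_two]
  rfl

theorem IsOrdBasis.det_eq (h : IsOrdBasis p ρ b) {σ : Gal} (hσ : σ ∈ dec p) :
    LinearMap.det (ρ.ρ σ) = ordX ρ b σ * ordZ ρ b σ := by
  rw [← LinearMap.det_toMatrix b, Matrix.det_fin_two]
  simp only [LinearMap.toMatrix_apply, h.stable σ hσ, mul_zero, sub_zero]
  rfl

theorem isUnit_det (σ : Gal) : IsUnit (LinearMap.det (ρ.ρ σ)) :=
  ((Group.isUnit σ).map ρ.ρ).map LinearMap.det

theorem inert_le_dec : (inert p : Subgroup Gal) ≤ dec p := Galois.inertia_le_decomposition _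

theorem IsOrdBasis.x_inert (h : IsOrdBasis p ρ b) {σ : Gal} (hσ : σ ∈ FlatTangent.inert p) :
    ordX ρ b σ = LinearMap.det (ρ.ρ σ) := by
  rw [h.det_eq (inert_le_dec hσ), h.inert σ hσ, mul_one]

theorem IsOrdBasis.y_mul (h : IsOrdBasis p ρ b) {σ τ : Gal} (hσ : σ ∈ dec p) (hτ : τ ∈ dec p) :
    ordY ρ b (σ * τ) = ordX ρ b σ * ordY ρ b τ + ordY ρ b σ * ordZ ρ b τ ∧
      ordX ρ b (σ * τ) = ordX ρ b σ * ordX ρ b τ ∧
      ordZ ρ b (σ * τ) = ordZ ρ b σ * ordZ ρ b τ := by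
  have h1 : ρ.ρ (σ * τ) (b 1) = (ordX ρ b σ * ordY ρ b τ + ordY ρ b σ * ordZ ρ b τ) • b 0
      + (ordZ ρ b σ * ordZ ρ b τ) • b 1 := by
    rw [map_mul, Module.End.mul_apply, apply_one τ, map_add, map_smul, map_smul,
      h.apply_zero hσ, apply_one σ]
    module
  have h0 : ρ.ρ (σ * τ) (b 0) = (ordX ρ b σ * ordX ρ b τ) • b 0 := by
    rw [map_mul, Module.End.mul_apply, h.apply_zero hτ, map_smul, h.apply_zero hσ, smul_smul,
      mul_comm]
  refine ⟨?_, ?_, ?_⟩
  · rw [ordY, h1]; simp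
  · rw [ordX, h0]; simp
  · rw [ordZ, h1]; simp

theorem repr_mem_of_mem_smul_top (b : Module.Basis (Fin 2) T ρ.V) (I : Ideal T) {v : ρ.V}
    (hv : v ∈ I • (⊤ : Submodule T ρ.V)) (i : Fin 2) : b.repr v i ∈ I := by
  refine Submodule.smul_induction_on (p := fun v => b.repr v i ∈ I) hv (fun a ha w _ => ?_)
    fun x y hx hy => ?_
  · rw [map_smul, Finsupp.smul_apply, smul_eq_mul]
    exact I.mul_mem_right _ ha
  · rw [map_add, Finsupp.add_apply]
    exact I.add_mem hx hy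

theorem exists_exponent (σ : Gal) (N : ℕ) :
    ∃ a : ℕ, ∀ μ : Qb, μ ^ p ^ N = 1 → σ μ = μ ^ a := by
  haveI : NeZero (p ^ N) := ⟨pow_ne_zero N (Fact.out : p.Prime).ne_zero⟩
  obtain ⟨ζ, hζ⟩ := HasEnoughRootsOfUnity.exists_primitiveRoot Qb (p ^ N)
  obtain ⟨a, -, ha⟩ := hζ.eq_pow_of_pow_eq_one
    (show σ ζ ^ p ^ N = 1 by rw [← map_pow, hζ.pow_eq_one, map_one])
  refine ⟨a, fun μ hμ => ?_⟩
  obtain ⟨j, -, rfl⟩ := hζ.eq_pow_of_pow_eq_one hμ
  rw [map_pow, ← ha, ← pow_mul, ← pow_mul, mul_comm]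

/-- The extension class modulo a power of the maximal ideal is a twisted cocycle. -/
theorem IsOrdBasis.isTwCocycle (h : IsOrdBasis p ρ b) (hdet : ρ.DetIsCyclotomic p) {A : Type}
    [CommRing A] (g : T →+* A) {N : ℕ} (hg : ∀ t ∈ maximalIdeal T ^ N, g t = 0) :
    IsTwCocycle p N (fun σ => g (LinearMap.det (ρ.ρ σ))) (fun σ => g (ordY ρ b σ)) where
  pow_eq_zero := by
    rw [← map_natCast g, ← map_pow]
    exact hg _ (Ideal.pow_mem_pow hdet.1 N)
  cyc σ lam a := by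
    obtain ⟨e, he⟩ := exists_exponent (p := p) σ N
    have hN : (p : A) ^ N = 0 := by
      rw [← map_natCast g, ← map_pow]
      exact hg _ (Ideal.pow_mem_pow hdet.1 N)
    obtain ⟨u, hu⟩ := Ideal.mem_span_singleton'.mp (hdet.2 N σ e he)
    have hge : g (LinearMap.det (ρ.ρ σ)) = (e : A) := by
      rw [← sub_eq_zero, ← map_natCast g, ← map_sub, ← hu, map_mul, map_natCast, Nat.cast_pow, hN,
        mul_zero]
    rw [he _ (chv_pow hN lam a), hge, ← nsmul_eq_mul, chv, chv, ← Units.val_pow_eq_pow_val,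
      ← map_pow, ← ofAdd_nsmul]
  mul σ hσ τ hτ := by
    rw [(h.y_mul (inert_le_dec hσ) (inert_le_dec hτ)).1, h.inert τ hτ, h.x_inert hσ, mul_one,
      map_add, map_mul]
  level := by
    obtain ⟨L, hL, hlev⟩ := ρ.isAdicContinuous N
    refine ⟨L, hL, fun σ _ hσ => hg _ ?_⟩
    have h1 := repr_mem_of_mem_smul_top b _
      (hlev σ ((IntermediateField.mem_fixingSubgroup_iff L σ).1 hσ) (b 1)) 0
    rw [map_sub, Finsupp.sub_apply, b.repr_self, Finsupp.single_apply, if_neg (by decide),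
      sub_zero] at h1
    exact h1

variable [IsNoetherianRing T] [Finite (ResidueField T)]

theorem finite_quotient_pow (n : ℕ) : Finite (T ⧸ maximalIdeal T ^ n) := by
  haveI : Finite (T ⧸ maximalIdeal T) := inferInstanceAs (Finite (ResidueField T))
  exact Ideal.finite_quotient_pow (IsNoetherian.noetherian _) n

/-- The residual class has unit Kummer elements, or `z ^ 2 = 1`. -/
theorem IsOrdBasis.units_or_sq (h : IsOrdBasis p ρ b) (hdet : ρ.DetIsCyclotomic p) :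
    (∃ n : ℕ, IsTwCocycle p (n + 1) (fun σ => residue T (LinearMap.det (ρ.ρ σ)))
        (fun σ => residue T (ordY ρ b σ)) ∧
      ∀ lam : Chr (ResidueField T),
        ∃ y, IsKummer p (fun σ => residue T (ordY ρ b σ)) lam y ∧ VEQ p 0 y) ∨
      ∀ σ ∈ dec p, ordZ ρ b σ ^ 2 = 1 := by
  classical
  by_contra hcon
  push_neg at hcon
  obtain ⟨hcon, φ, hφ, hne⟩ := hcon
  apply hne
  rw [← sub_eq_zero, ← Ideal.mem_bot,
    ← Ideal.iInf_pow_eq_bot_of_isLocalRing _ (maximalIdeal.isMaximal T).ne_top, Ideal.mem_iInf]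
  intro n
  set I := maximalIdeal T ^ (n + 1) with hI
  refine Ideal.pow_le_pow_right (Nat.le_succ n) (?_ : ordZ ρ b φ ^ 2 - 1 ∈ I)
  set π := Ideal.Quotient.mk I with hπ
  have hcoc := h.isTwCocycle hdet π (N := n + 1) fun t ht => Ideal.Quotient.eq_zero_iff_mem.mpr ht
  haveI := finite_quotient_pow (T := T) (n + 1)
  obtain ⟨w, hw, hV⟩ := hcoc.exists_obstruction
  obtain ⟨t, ht⟩ := Ideal.Quotient.mk_surjective w
  have hxz := h.det_eq hφ
  obtain ⟨zu, hzu⟩ : IsUnit (ordZ ρ b φ) :=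
    isUnit_of_mul_isUnit_right (hxz ▸ isUnit_det (ρ := ρ) φ)
  have htu : IsUnit t := by
    by_contra hnu
    have hres : residue T t = 0 := (residue_eq_zero_iff t).mpr hnu
    let f : T ⧸ I →+* ResidueField T := Ideal.Quotient.lift I (residue T) fun s hs =>
      (residue_eq_zero_iff s).mpr (Ideal.pow_le_self (Nat.succ_ne_zero n) hs)
    have hres' : IsTwCocycle p (n + 1) (fun σ => residue T (LinearMap.det (ρ.ρ σ)))
        (fun σ => residue T (ordY ρ b σ)) :=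
      h.isTwCocycle hdet (residue T) fun s hs =>
        (residue_eq_zero_iff s).mpr (Ideal.pow_le_self (Nat.succ_ne_zero n) hs)
    obtain ⟨lam, hlam⟩ := hcon n hres'
    obtain ⟨y, hy, hy0⟩ := hres'.exists_unit_kummer (w := f w) (hw.map f) lam (by
      rw [← ht, Ideal.Quotient.lift_mk, hres, chv_zero])
    exact hlam y hy hy0
  have hinv : π (LinearMap.det (ρ.ρ φ⁻¹)) * π (LinearMap.det (ρ.ρ φ)) = 1 := by
    rw [← map_mul, ← map_mul LinearMap.det, ← map_mul, inv_mul_cancel, map_one, map_one, map_one]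
  have hVw : π ((↑zu⁻¹ : T) ^ 2) * w = w := hV φ hφ _ (π (ordY ρ b φ * ↑zu⁻¹)) hinv fun σ hσ => by
    have hσ' : φ * σ * φ⁻¹ ∈ FlatTangent.inert p :=
      Galois.inertia_normal_in_decomposition hσ hφ
    have e : φ * σ * φ⁻¹ * φ = φ * σ := by group
    have hd : LinearMap.det (ρ.ρ (φ * σ * φ⁻¹)) = LinearMap.det (ρ.ρ σ) := by
      have h1 : LinearMap.det (ρ.ρ φ) * LinearMap.det (ρ.ρ φ⁻¹) = 1 := by
        rw [← map_mul LinearMap.det, ← map_mul, mul_inv_cancel, map_one, map_one]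
      rw [map_mul, map_mul, map_mul, map_mul]
      linear_combination LinearMap.det (ρ.ρ σ) * h1
    refine ⟨congrArg π hd, ?_⟩
    have hl := (h.y_mul (inert_le_dec hσ') hφ).1
    rw [e, (h.y_mul hφ (inert_le_dec hσ)).1, h.inert σ hσ, h.x_inert hσ'] at hl
    rw [hd, mul_one, ← hzu] at hl
    have key : ordY ρ b (φ * σ * φ⁻¹) =
        LinearMap.det (ρ.ρ φ) * (↑zu⁻¹ : T) ^ 2 * ordY ρ b σ
          + (1 - LinearMap.det (ρ.ρ σ)) * (ordY ρ b φ * ↑zu⁻¹) := by
      rw [hxz, ← hzu]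
      have hu : (zu : T) * ↑zu⁻¹ = 1 := zu.mul_inv
      linear_combination -(↑zu⁻¹ : T) * hl
        + (-(ordY ρ b (φ * σ * φ⁻¹)) - ordX ρ b φ * ↑zu⁻¹ * ordY ρ b σ) * hu
    simp only [key, map_add, map_mul, map_sub, map_one]
  rw [← ht, ← map_mul, Ideal.Quotient.eq] at hVw
  have h2 := I.mul_mem_left (-((↑htu.unit⁻¹ : T) * (zu : T) ^ 2)) hVw
  have hu : (zu : T) * ↑zu⁻¹ = 1 := zu.mul_inv
  convert h2 using 1
  have hu' : (t : T) * ↑htu.unit⁻¹ = 1 := htu.mul_val_inv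
  rw [← hzu]
  linear_combination (1 - (zu : T) ^ 2) * hu'
    + ((t : T) * ↑htu.unit⁻¹ * ((zu : T) * ↑zu⁻¹ + 1)) * hu

/-- Unit Kummer elements give residual flatness at `p`. -/
theorem IsOrdBasis.residual_isFlatAt (h : IsOrdBasis p ρ b) {n : ℕ}
    (hc : IsTwCocycle p (n + 1) (fun σ => residue T (LinearMap.det (ρ.ρ σ)))
      (fun σ => residue T (ordY ρ b σ)))
    (hu : ∀ lam : Chr (ResidueField T),
      ∃ y, IsKummer p (fun σ => residue T (ordY ρ b σ)) lam y ∧ VEQ p 0 y) :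
    (GaloisRepAdic.ofResidualGaloisRep ρ.residual).IsFlatAt p := by
  let bk : Module.Basis (Fin 2) (ResidueField T)
      (GaloisRepAdic.ofResidualGaloisRep ρ.residual).V := b.baseChange (ResidueField T)
  have hbk : ∀ i, bk i = (1 : ResidueField T) ⊗ₜ[T] b i := fun i =>
    Module.Basis.baseChange_apply (ResidueField T) b i
  have hsm : ∀ (t : T) (v : ρ.V),
      (1 : ResidueField T) ⊗ₜ[T] (t • v) = residue T t • ((1 : ResidueField T) ⊗ₜ[T] v) := by
    intro t v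
    rw [TensorProduct.tmul_smul, ← IsLocalRing.ResidueField.algebraMap_eq, algebraMap_smul]
  refine isFlatAt_of_units _ bk hc (fun σ hσ => ?_) (fun σ hσ => ?_) hu
  · show (ρ.ρ σ).baseChange (ResidueField T) (bk 0) = _
    rw [hbk, LinearMap.baseChange_tmul, h.apply_zero (inert_le_dec hσ), hsm, h.x_inert hσ]
    rfl
  · show (ρ.ρ σ).baseChange (ResidueField T) (bk 1) = _
    rw [hbk, hbk, LinearMap.baseChange_tmul, apply_one, h.inert σ hσ, one_smul,
      TensorProduct.tmul_add, hsm, add_comm]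
    rfl

/-- An ordinary line at the chosen place gives an adapted basis. -/
theorem exists_isOrdBasis (hord : ρ.IsOrdinaryAt p) :
    ∃ b : Module.Basis (Fin 2) T ρ.V, IsOrdBasis p ρ b := by
  obtain ⟨L, ⟨b, rfl⟩, hD, hI⟩ := hord (plc p) (plc_liesOverPrime p)
  refine ⟨b, ⟨fun σ hσ => ?_, fun σ hσ => ?_⟩⟩
  · obtain ⟨r, hr⟩ := Submodule.mem_span_singleton.mp
      (hD σ hσ (b 0) (Submodule.mem_span_singleton_self _))
    rw [← hr]
    simp
  · obtain ⟨r, hr⟩ := Submodule.mem_span_singleton.mp (hI σ hσ (b 1))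
    rw [ordZ, show ρ.ρ σ (b 1) = b 1 + r • b 0 by rw [hr]; abel]
    simp

/-- `z ^ 2 = 1` at the chosen place gives strict ordinarity. -/
theorem IsOrdBasis.isStrictOrdinaryAt (h : IsOrdBasis p ρ b) (hdet : ρ.DetIsCyclotomic p)
    (hsq : ∀ σ ∈ dec p, ordZ ρ b σ ^ 2 = 1) : ρ.IsStrictOrdinaryAt p := by
  have hp : p.Prime := Fact.out
  refine ⟨hdet.1, fun P hP => ?_⟩
  obtain ⟨τ, rfl⟩ := Galois.exists_smul_eq (plc_liesOverPrime p) hP hp
  let e : ρ.V ≃ₗ[T] ρ.V := LinearEquiv.ofLinear (ρ.ρ τ) (ρ.ρ τ⁻¹)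
    (by rw [← Module.End.mul_eq_comp, ← map_mul, mul_inv_cancel, map_one]; rfl)
    (by rw [← Module.End.mul_eq_comp, ← map_mul, inv_mul_cancel, map_one]; rfl)
  have hconj : ∀ σ : Gal, ∀ v, ρ.ρ σ (e v) = e (ρ.ρ (τ⁻¹ * σ * τ) v) := by
    intro σ v
    show ρ.ρ σ (ρ.ρ τ v) = ρ.ρ τ (ρ.ρ (τ⁻¹ * σ * τ) v)
    rw [← Module.End.mul_apply, ← Module.End.mul_apply, ← map_mul, ← map_mul,
      show τ * (τ⁻¹ * σ * τ) = σ * τ by group]
  have hb' : ∀ i, b.map e i = e (b i) := fun i => b.map_apply e i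
  have hex : ∀ v : ρ.V, ∃ r s : T, v = r • e (b 0) + s • e (b 1) := fun v =>
    ⟨(b.map e).repr v 0, (b.map e).repr v 1, by
      conv_lhs => rw [← (b.map e).sum_repr v]
      rw [Fin.sum_univ_two, hb', hb']⟩
  have hmem : ∀ r : T, r • e (b 0) ∈ T ∙ (b.map e) 0 := fun r => by
    rw [hb']; exact Submodule.smul_mem _ _ (Submodule.mem_span_singleton_self _)
  have hdecσ : ∀ σ ∈ (τ • plc p).decompositionSubgroup ℚ, τ⁻¹ * σ * τ ∈ dec p := fun σ hσ =>
    Galois.mem_decomposition_smul_iff.mp hσ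
  have hquot : ∀ σ ∈ (τ • plc p).decompositionSubgroup ℚ, ∀ v : ρ.V,
      ρ.ρ σ v - ordZ ρ b (τ⁻¹ * σ * τ) • v ∈ T ∙ (b.map e) 0 := by
    intro σ hσ v
    obtain ⟨r, s, rfl⟩ := hex v
    rw [map_add, map_smul, map_smul, hconj, hconj, h.apply_zero (hdecσ σ hσ), apply_one, map_smul,
      map_add, map_smul, map_smul]
    set x := ordX ρ b (τ⁻¹ * σ * τ)
    set y := ordY ρ b (τ⁻¹ * σ * τ)
    set z := ordZ ρ b (τ⁻¹ * σ * τ)
    rw [show r • x • e (b 0) + s • (y • e (b 0) + z • e (b 1)) - z • (r • e (b 0) + s • e (b 1)) =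
      (r * x + s * y - z * r) • e (b 0) by module]
    exact hmem _
  refine ⟨T ∙ (b.map e) 0, ⟨b.map e, rfl⟩, fun σ hσ v hv => ?_, fun σ hσ v => ?_,
    fun σ hσ => ?_⟩
  · obtain ⟨r, rfl⟩ := Submodule.mem_span_singleton.mp hv
    rw [hb', map_smul, hconj, h.apply_zero (hdecσ σ hσ), map_smul, smul_smul, ← hb']
    exact Submodule.smul_mem _ _ (Submodule.mem_span_singleton_self _)
  · have hσ' : τ⁻¹ * σ * τ ∈ FlatTangent.inert p := Galois.mem_inertia_smul_iff.mp hσ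
    have h1 := hquot σ (Galois.inertia_le_decomposition _ hσ) v
    rwa [h.inert _ hσ', one_smul] at h1
  · set σ' := τ⁻¹ * σ * τ with hσ'
    refine ⟨ordX ρ b σ', ordZ ρ b σ', fun w hw => ?_, hquot σ hσ, fun n a ha => ?_⟩
    · obtain ⟨r, rfl⟩ := Submodule.mem_span_singleton.mp hw
      rw [hb', map_smul, hconj, h.apply_zero (hdecσ σ hσ), map_smul, smul_comm]
    have ha' : ∀ μ : Qb, μ ^ p ^ n = 1 → σ' μ = μ ^ a := by
      intro μ hμ
      have h1 : σ (τ μ) = (τ μ) ^ a := ha _ (by rw [← map_pow, hμ, map_one])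
      rw [hσ', AlgEquiv.mul_apply, AlgEquiv.mul_apply, h1, map_pow]
      simp [← AlgEquiv.mul_apply]
    have hd := hdet.2 n σ' a ha'
    rw [h.det_eq (hdecσ σ hσ)] at hd
    have hz := hsq σ' (hdecσ σ hσ)
    have h2 := Ideal.mul_mem_right (ordZ ρ b σ') _ hd
    convert h2 using 1
    linear_combination -(ordX ρ b σ') * hz

/-- **Ordinary with cyclotomic determinant is strict ordinary, or residually flat.** -/
theorem isStrictOrdinaryAt_or_residual_isFlatAt (hdet : ρ.DetIsCyclotomic p)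
    (hord : ρ.IsOrdinaryAt p) :
    ρ.IsStrictOrdinaryAt p ∨
      (GaloisRepAdic.ofResidualGaloisRep ρ.residual).IsFlatAt p := by
  obtain ⟨b, hb⟩ := exists_isOrdBasis hord
  rcases hb.units_or_sq hdet with ⟨n, hc, hu⟩ | hsq
  · exact Or.inr (hb.residual_isFlatAt hc hu)
  · exact Or.inl (hb.isStrictOrdinaryAt hdet hsq)

end Fermat.Agent.R59.TopRep
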