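import Fermat.Agent.R59.TopRep.Residual
import Fermat.Agent.R59.HeckeRep
import Fermat.Prelude.Def_CuspForm_HeckeGaloisRepDatum

/-!
# The condition at `p` of the ordinary and strict kinds at mixed levels

* `StmtOrdinaryAtP`: ordinarity of a Hecke Galois datum at a prime dividing the level exactly once.
* `isOrdinaryAt_of_datum`: the representation at level `mixLevel p k' A B` is ordinary.
* `isStrictOrdinaryAt_of_datum`: it is strict ordinary for strict problems.
* `baseCond_of_datum`: the whole condition `baseCond k'` for those kinds.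
-/

set_option autoImplicit false
set_option synthInstance.maxHeartbeats 400000

noncomputable section

open IsLocalRing CuspForm

namespace Fermat.Agent.R59.TopRep

/-- A Hecke Galois datum of level exactly divisible by `p` with ordinary residual representation is
ordinary at `p`. -/
def StmtOrdinaryAtP : Prop :=
  ∀ (p N : ℕ) [NeZero N] (S : Finset ℕ)
    (𝒪 : Type) [CommRing 𝒪] [IsDomain 𝒪] [IsDiscreteValuationRing 𝒪]
    [IsAdicComplete (maximalIdeal 𝒪) 𝒪]
    (θ : CuspForm.heckeAlgebra N 2 (↑S : Set ℕ) →+* ResidueField 𝒪)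
    (T : Type) [CommRing T] [IsLocalRing T] [IsNoetherianRing T]
    [IsAdicComplete (maximalIdeal T) T] [Algebra 𝒪 T] [IsLocalHom (algebraMap 𝒪 T)]
    [Module.Finite 𝒪 T] [Module.Free 𝒪 T] [Finite (ResidueField 𝒪)] [CharZero 𝒪],
    p.Prime → p ≠ 2 → (p : 𝒪) ∈ maximalIdeal 𝒪 → (p ∣ N ∧ ¬ p ^ 2 ∣ N) →
    (∀ q : ℕ, q.Prime → q ∣ N → q ∈ S) →
    ∀ H : CuspForm.HeckeGaloisRepDatum N (↑S : Set ℕ) 𝒪 θ T,
      (GaloisRepAdic.ofResidualGaloisRep H.ρ.residual).IsOrdinaryAt p → H.ρ.IsOrdinaryAt p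

theorem prime_factor_mixLevel {p : ℕ} (hp : p.Prime) (k : Kind) {A B : Finset ℕ}
    (hAB : ∀ q ∈ A ∪ B, q.Prime ∧ q ≠ p) {q : ℕ} (hq : q.Prime) (hd : q ∣ mixLevel p k A B) :
    q ∈ insert p (A ∪ B) := by
  have key : ∀ C : Finset ℕ, C ⊆ A ∪ B → q ∣ ∏ x ∈ C, x → q ∈ A ∪ B := fun C hC h => by
    obtain ⟨x, hx, hqx⟩ := (hq.prime.dvd_finsetProd_iff _).mp h
    rw [(Nat.prime_dvd_prime_iff_eq hq (hAB x (hC hx)).1).mp hqx]
    exact hC hx
  rw [mixLevel, hq.dvd_mul, hq.dvd_mul] at hd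
  rcases hd with (h | h) | h
  · exact Finset.mem_insert_of_mem (key A Finset.subset_union_left h)
  · exact Finset.mem_insert_of_mem (key B Finset.subset_union_right (hq.dvd_of_dvd_pow h))
  · exact Finset.mem_insert.mpr
      (Or.inl ((Nat.prime_dvd_prime_iff_eq hq hp).mp (hq.dvd_of_dvd_pow h)))

theorem dvd_mixLevel_and_not_sq {p : ℕ} (hp : p.Prime) {k : Kind} (hk : k ≠ .flat)
    {A B : Finset ℕ} (hAB : ∀ q ∈ A ∪ B, q.Prime ∧ q ≠ p) :
    p ∣ mixLevel p k A B ∧ ¬ p ^ 2 ∣ mixLevel p k A B := by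
  have hk1 : k.pExp = 1 := by cases k <;> simp_all [Kind.pExp]
  rw [mixLevel, hk1, pow_one]
  refine ⟨dvd_mul_left p _, fun h => ?_⟩
  rw [sq] at h
  have hd := Nat.dvd_of_mul_dvd_mul_right hp.pos h
  rcases hp.dvd_mul.mp hd with h' | h'
  · obtain ⟨x, hx, hpx⟩ := (hp.prime.dvd_finsetProd_iff _).mp h'
    exact (hAB x (Finset.mem_union_left _ hx)).2
      ((Nat.prime_dvd_prime_iff_eq hp (hAB x (Finset.mem_union_left _ hx)).1).mp hpx).symm
  · obtain ⟨x, hx, hpx⟩ := (hp.prime.dvd_finsetProd_iff _).mp (hp.dvd_of_dvd_pow h')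
    exact (hAB x (Finset.mem_union_right _ hx)).2
      ((Nat.prime_dvd_prime_iff_eq hp (hAB x (Finset.mem_union_right _ hx)).1).mp hpx).symm

variable {W : WeierstrassCurve ℤ} {p : ℕ} {k k' : Kind} (U : Setup W p k)
  {A B : Finset ℕ} [NeZero (mixLevel p k' A B)]
  {θ : ↥(CuspForm.heckeAlgebra (mixLevel p k' A B) 2 (↑(insert p (A ∪ B)) : Set ℕ)) →+*
    ResidueField U.𝒪}
  {T : Type} [CommRing T] [IsLocalRing T] [IsNoetherianRing T]
  [IsAdicComplete (maximalIdeal T) T] [Algebra U.𝒪 T] [IsLocalHom (algebraMap U.𝒪 T)]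
  [Module.Finite U.𝒪 T] [Module.Free U.𝒪 T]

theorem isOrdinaryAt_of_datum (h33 : StmtOrdinaryAtP) (hc : CoreHyp W p k) (hk : k ≠ .flat)
    (hk' : k' ≠ .flat) (hAB : ∀ q ∈ A ∪ B, q.Prime ∧ q ≠ p)
    (H : CuspForm.HeckeGaloisRepDatum (mixLevel p k' A B) (↑(insert p (A ∪ B)) : Set ℕ) U.𝒪 θ T)
    (hres : H.ρ.residual.IsEquiv
      (U.ρbar.baseChangeAlong (ResidueField.map (algebraMap U.𝒪 T)))) :
    H.ρ.IsOrdinaryAt p := by
  have hp : p.Prime := by rcases hc.1 with rfl | rfl <;> decide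
  have hp2 : p ≠ 2 := by rcases hc.1 with rfl | rfl <;> decide
  exact h33 p (mixLevel p k' A B) (insert p (A ∪ B)) U.𝒪 θ T hp hp2 U.p_mem
    (dvd_mixLevel_and_not_sq hp hk' hAB) (fun q hq hd => prime_factor_mixLevel hp k' hAB hq hd) H
    (residual_isOrdinaryAt_of_setup U hk hres)

/-- For the ordinary and strict kinds the condition at `p` and outside follows from ordinarity of
Hecke Galois data and the non-flatness of strict problems. -/
theorem baseCond_of_datum (h33 : StmtOrdinaryAtP) (hnf : StmtStrictNotFlat)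
    (hc : CoreHyp W p k) (hkk : k' = k.base ∨ k' = k) (hk' : k' ≠ .flat)
    (hAB : ∀ q ∈ A ∪ B, q.Prime ∧ q ≠ p)
    (H : CuspForm.HeckeGaloisRepDatum (mixLevel p k' A B) (↑(insert p (A ∪ B)) : Set ℕ) U.𝒪 θ T)
    (hres : H.ρ.residual.IsEquiv
      (U.ρbar.baseChangeAlong (ResidueField.map (algebraMap U.𝒪 T))))
    (hdet : H.ρ.DetIsCyclotomic p)
    (hunr : ∀ q : ℕ, q.Prime → q ∉ insert p (A ∪ B) → H.ρ.IsUnramifiedAt q) :
    baseCond k' U.𝒪 p (insert p (A ∪ B)) H.ρ := by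
  cases k'
  · exact absurd rfl hk'
  · have hks : k = .strict := by
      rcases hkk with h | h <;> revert h <;> cases k <;> simp [Kind.base]
    subst hks
    have : Fact p.Prime := ⟨by rcases hc.1 with rfl | rfl <;> decide⟩
    exact ⟨hdet, isStrictOrdinaryAt_of_not_flat U H.residue_surjective hres hdet
      (isOrdinaryAt_of_datum U h33 hc (by simp) hk' hAB H hres) (hnf W p hc U), hunr⟩
  · have hk : k ≠ .flat := by
      rcases hkk with h | h <;> revert h <;> cases k <;> simp [Kind.base]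
    exact ⟨hdet, isOrdinaryAt_of_datum U h33 hc hk hk' hAB H hres, hunr⟩

end Fermat.Agent.R59.TopRep
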