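import Fermat.Agent.R59.TopRep.Main
import Fermat.Agent.R59.TopRep.StrictCase

/-!
# The Galois side at mixed levels

`stmtHeckeRep_of` proves `StmtHeckeRep` from the types of S31, S32, S33, S34, S37 and the
non-flatness of the residual representation of a strict problem.
-/

set_option autoImplicit false
set_option synthInstance.maxHeartbeats 400000

noncomputable section

open IsLocalRing CuspForm Polynomial

namespace Fermat.Agent.R59.TopRep

theorem stmtOrdinaryAtP_of (h33 : Stmt33) : StmtOrdinaryAtP :=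
  fun _ _ _ _ _ _ _ _ _ _ _ _ _ _ _ _ _ _ _ _ _ hp hp2 hp𝒪 hN hNS H hres =>
    h33 hp hp2 hp𝒪 hN hNS H hres

theorem not_dvd_mixLevel_flat {p : ℕ} (hp : p.Prime) {A B : Finset ℕ}
    (hAB : ∀ q ∈ A ∪ B, q.Prime ∧ q ≠ p) : ¬ p ∣ mixLevel p .flat A B := by
  rw [mixLevel, Kind.pExp, pow_zero, mul_one]
  intro hd
  rcases hp.dvd_mul.mp hd with h | h
  · obtain ⟨x, hx, hpx⟩ := (hp.prime.dvd_finsetProd_iff _).mp h
    exact (hAB x (Finset.mem_union_left _ hx)).2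
      ((Nat.prime_dvd_prime_iff_eq hp (hAB x (Finset.mem_union_left _ hx)).1).mp hpx).symm
  · obtain ⟨x, hx, hpx⟩ := (hp.prime.dvd_finsetProd_iff _).mp (hp.dvd_of_dvd_pow h)
    exact (hAB x (Finset.mem_union_right _ hx)).2
      ((Nat.prime_dvd_prime_iff_eq hp (hAB x (Finset.mem_union_right _ hx)).1).mp hpx).symm

/-- The primes of `A` divide the mixed level exactly once. -/
theorem dvd_mixLevel_and_not_sq_of_mem {p : ℕ} (hp : p.Prime) (k : Kind) {A B : Finset ℕ}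
    (hAB : ∀ q ∈ A ∪ B, q.Prime ∧ q ≠ p) (hd : Disjoint A B) {q : ℕ} (hq : q ∈ A) :
    q ∣ mixLevel p k A B ∧ ¬ q ^ 2 ∣ mixLevel p k A B := by
  obtain ⟨hqP, hqp⟩ := hAB q (Finset.mem_union_left _ hq)
  refine ⟨((Finset.dvd_prod_of_mem _ hq).mul_right _).mul_right _, fun h => ?_⟩
  have hnp : ¬ q ∣ p ^ k.pExp := fun h' =>
    hqp ((Nat.prime_dvd_prime_iff_eq hqP hp).mp (hqP.dvd_of_dvd_pow h'))
  have hnB : ¬ q ∣ (∏ x ∈ B, x) ^ 2 := fun h' => by
    obtain ⟨x, hx, hqx⟩ := (hqP.prime.dvd_finsetProd_iff _).mp (hqP.dvd_of_dvd_pow h')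
    rw [← (Nat.prime_dvd_prime_iff_eq hqP (hAB x (Finset.mem_union_right _ hx)).1).mp hqx] at hx
    exact Finset.disjoint_left.mp hd hq hx
  rw [mixLevel, mul_assoc] at h
  have hc : (q ^ 2).Coprime ((∏ x ∈ B, x) ^ 2 * p ^ k.pExp) :=
    (hqP.coprime_iff_not_dvd.mpr fun h' => (hqP.dvd_mul.mp h').elim hnB hnp).pow_left 2
  have h2 := hc.dvd_of_dvd_mul_right h
  rw [← Finset.mul_prod_erase _ _ hq, sq, mul_dvd_mul_iff_left hqP.ne_zero] at h2
  obtain ⟨x, hx, hqx⟩ := (hqP.prime.dvd_finsetProd_iff _).mp h2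
  obtain ⟨hxne, hxm⟩ := Finset.mem_erase.mp hx
  exact hxne
    ((Nat.prime_dvd_prime_iff_eq hqP (hAB x (Finset.mem_union_left _ hxm)).1).mp hqx).symm

/-- **The Galois side at mixed levels.** -/
theorem stmtHeckeRep_of (h31 : Stmt31) (h32 : Stmt32) (h33 : Stmt33) (h34 : Stmt34) (h37 : Stmt37)
    (hnf : StmtStrictNotFlat) : StmtHeckeRep := by
  intro W p k h U k' hkk A B hAB hdisj hram _ _ θ hθ
  have hp : p.Prime := by rcases h.1 with rfl | rfl <;> decide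
  have hp2 : p ≠ 2 := by rcases h.1 with rfl | rfl <;> decide
  have : Fact p.Prime := ⟨hp⟩
  have hpS : p ∈ (insert p (A ∪ B)) := Finset.mem_insert_self _ _
  have hNS : ∀ q : ℕ, q.Prime → q ∣ mixLevel p k' A B → q ∈ (insert p (A ∪ B)) :=
    fun q hq hd => prime_factor_mixLevel hp k' hAB hq hd
  obtain ⟨e1⟩ := U.base_residual
  obtain ⟨e2⟩ := baseChangeAlong_id_isEquiv (residueFieldMap_algebraMap_self (A := U.𝒪)) U.ρbar
  obtain ⟨H, hπ, hres⟩ := Datum.exists_heckeGaloisRepDatum_of_specializationExists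
    (N := mixLevel p k' A B) (S := (↑(insert p (A ∪ B)) : Set ℕ)) (p := p) (𝒪 := U.𝒪)
    (h37 (mixLevel p k' A B) p) hp2 U.p_mem (Finset.mem_coe.mpr hpS) (Finset.finite_toSet _) θ
    U.ρbar U.absIrr (minSet W p) fun ℓ hℓ hℓN hℓS hℓS₀ A' hA σ hσ => by
      rw [charpoly_of_isEquiv (e1.trans e2) σ, charpoly_residual,
        U.base_charpoly ℓ hℓ hℓS₀ A' hA σ hσ, hθ ℓ hℓ hℓN hℓS]
      simp
  have hdet : H.ρ.DetIsCyclotomic p := by
    refine detIsCyclotomic_of_frobenius H.ρ ?_ (insert p (A ∪ B)) fun ℓ hℓ hℓS P hP σ hσ => ?_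
    · rw [← map_natCast (algebraMap U.𝒪
        (CuspForm.heckeLocal (mixLevel p k' A B) (↑(insert p (A ∪ B)) : Set ℕ) U.𝒪 θ))]
      exact map_nonunit _ _ U.p_mem
    · rw [LinearMap.det_eq_sign_charpoly_coeff, H.charpoly_frob ℓ hℓ
        (fun hd => hℓS (hNS ℓ hℓ hd)) (fun hS => hℓS (Finset.mem_coe.mp hS)) P hP σ hσ,
        H.ρ.finrank_eq]
      simp
  have hunr : ∀ q : ℕ, q.Prime → q ∉ (insert p (A ∪ B)) → H.ρ.IsUnramifiedAt q :=
    h31 hp U.p_mem hpS hNS H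
  refine ⟨H, hπ, ⟨?_, fun q hq hqP hqp => ?_⟩, hres⟩
  · by_cases hk' : k' = .flat
    · subst hk'
      exact ⟨hdet, h32 hp hp2 U.p_mem (not_dvd_mixLevel_flat hp hAB) hpS hNS H, hunr⟩
    · exact baseCond_of_datum U (stmtOrdinaryAtP_of h33) hnf h hkk hk' hAB H hres hdet hunr
  · have hqA : q ∈ A := (Finset.mem_insert.mp hq).resolve_left hqp
    obtain ⟨h1, h2⟩ := dvd_mixLevel_and_not_sq_of_mem hp k' hAB hdisj hqA
    exact h34 hp U.p_mem hpS hNS H q hqP hqp h1 h2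

end Fermat.Agent.R59.TopRep
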